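import Mathlib.GroupTheory.FiniteAbelian.Duality
import Mathlib.RingTheory.RootsOfUnity.AlgebraicallyClosed
import Mathlib.RingTheory.Polynomial.Cyclotomic.Basic
import Mathlib.Analysis.Complex.Polynomial.Basic
import Mathlib.GroupTheory.Index

/-!
# The character product identity (S14 fast track, WP U4 helper lemma)

For a finite abelian group `Y`, an element `y : Y` of order `f`, `h = card Y`, and `T : ℂ`:

  `∏ χ : Y →* ℂˣ, (1 - χ y * T) = (1 - T ^ f) ^ (h / f)`.

Also: orthogonality `∑ χ, χ y = if y = 1 then h else 0`.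
-/

namespace Fermat.Agent.Lib.CFT.Unram.CharProd

open Finset

variable {Y : Type*} [CommGroup Y] [Finite Y]

instance instNeZeroExponent : NeZero (Monoid.exponent Y) :=
  ⟨Monoid.exponent_ne_zero_of_finite⟩

/-- The characters killing `y` form a subgroup of index `orderOf y`, i.e. of
cardinality `card Y / orderOf y`. -/
theorem card_ker_eval (y : Y) :
    Nat.card (MonoidHom.eval (N := ℂˣ) y).ker = Nat.card Y / orderOf y := by
  have h1 : (MonoidHom.eval (N := ℂˣ) y).ker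
      = (MonoidHom.domRestrictHom (Subgroup.zpowers y) ℂˣ).ker := by
    ext χ
    simp only [MonoidHom.mem_ker, MonoidHom.eval_apply_apply, MonoidHom.domRestrictHom_apply]
    constructor
    · intro h
      ext ⟨z, hz⟩
      obtain ⟨k, rfl⟩ := Subgroup.mem_zpowers_iff.mp hz
      simp [map_zpow, h]
    · intro h
      have := DFunLike.congr_fun h ⟨y, Subgroup.mem_zpowers y⟩
      simpa using this
  rw [h1, CommGroup.card_domRestrictHom_ker ℂ (Subgroup.zpowers y)]
  have h2 := (Subgroup.zpowers y).card_eq_card_quotient_mul_card_subgroup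
  rw [Nat.card_zpowers] at h2
  rw [h2, Nat.mul_div_cancel _ (orderOf_pos y)]

/-- Values of characters at `y` are `orderOf y`-th roots of unity. -/
theorem eval_mem_nthRootsFinset (y : Y) (χ : Y →* ℂˣ) :
    ((χ y : ℂˣ) : ℂ) ∈ Polynomial.nthRootsFinset (orderOf y) (1 : ℂ) := by
  rw [Polynomial.mem_nthRootsFinset (orderOf_pos y)]
  rw [← Units.val_pow_eq_pow_val, ← map_pow, pow_orderOf_eq_one, map_one, Units.val_one]

variable [Fintype (Y →* ℂˣ)]

/-- All the fibres of `χ ↦ χ y` over `orderOf y`-th roots of unity have the same cardinality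
`card Y / orderOf y`. -/
theorem card_fiber_eval (y : Y) (ζ : ℂ) (hζ : ζ ∈ Polynomial.nthRootsFinset (orderOf y) (1 : ℂ)) :
    #{χ : Y →* ℂˣ | ((χ y : ℂˣ) : ℂ) = ζ} = Nat.card Y / orderOf y := by
  classical
  set f := orderOf y with hf
  have hfpos : 0 < f := orderOf_pos y
  set k := Nat.card Y / f with hk
  have hkpos : 0 < k := Nat.div_pos (Nat.le_of_dvd Nat.card_pos (orderOf_dvd_natCard y)) hfpos
  -- fibre over a value in the range has `k` elements
  have hfib : ∀ χ₀ : Y →* ℂˣ, #{χ : Y →* ℂˣ | ((χ y : ℂˣ) : ℂ) = ((χ₀ y : ℂˣ) : ℂ)} = k := by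
    intro χ₀
    have h1 := MonoidHom.card_fiber_eq_of_mem_range (MonoidHom.eval (N := ℂˣ) y)
      (x := χ₀ y) (y := 1) ⟨χ₀, rfl⟩ ⟨1, by simp⟩
    have h2 : #{χ : Y →* ℂˣ | (MonoidHom.eval (N := ℂˣ) y) χ = 1} = k := by
      rw [hk, hf, ← card_ker_eval y, Nat.card_eq_fintype_card, Fintype.card_subtype]
      refine congrArg Finset.card ?_
      ext χ
      simp [MonoidHom.mem_ker]
    rw [← h2, ← h1]
    congr 1
    ext χ
    simp only [mem_filter, mem_univ, true_and, MonoidHom.eval_apply_apply, Units.val_inj]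
  -- count
  set R := Polynomial.nthRootsFinset f (1 : ℂ) with hR
  have hcardR : #R = f := by
    have : NeZero f := ⟨hfpos.ne'⟩
    obtain ⟨ξ, hξ⟩ := HasEnoughRootsOfUnity.exists_primitiveRoot ℂ f
    exact hξ.card_nthRootsFinset
  set I := (univ : Finset (Y →* ℂˣ)).image (fun χ => ((χ y : ℂˣ) : ℂ)) with hI
  have hIR : I ⊆ R := by
    intro z hz
    obtain ⟨χ, -, rfl⟩ := mem_image.mp hz
    exact eval_mem_nthRootsFinset y χ
  have hcount : Fintype.card (Y →* ℂˣ) = #I * k := by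
    rw [← card_univ, card_eq_sum_card_image (fun χ : Y →* ℂˣ => ((χ y : ℂˣ) : ℂ)) univ]
    rw [← hI, sum_const_nat (m := k)]
    intro z hz
    obtain ⟨χ₀, -, rfl⟩ := mem_image.mp hz
    simpa using hfib χ₀
  have hcardY : Fintype.card (Y →* ℂˣ) = f * k := by
    rw [← Nat.card_eq_fintype_card, CommGroup.card_monoidHom_of_hasEnoughRootsOfUnity Y ℂ,
      hk, Nat.mul_div_cancel' (orderOf_dvd_natCard y)]
  have hIeq : I = R := by
    apply eq_of_subset_of_card_le hIR
    rw [hcardR]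
    have : #I * k = f * k := by rw [← hcount, hcardY]
    exact (Nat.eq_of_mul_eq_mul_right hkpos this).ge
  have : ζ ∈ I := hIeq ▸ hζ
  obtain ⟨χ₀, -, rfl⟩ := mem_image.mp this
  exact hfib χ₀

/-- **Character product identity.** For a finite abelian group `Y`, `y : Y` of order `f`, and
`h = card Y`: `∏_χ (1 - χ(y) T) = (1 - T ^ f) ^ (h / f)`, the product over all characters
`χ : Y →* ℂˣ`. -/
theorem prod_one_sub_char_mul (y : Y) (T : ℂ) :
    ∏ χ : Y →* ℂˣ, (1 - ((χ y : ℂˣ) : ℂ) * T)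
      = (1 - T ^ orderOf y) ^ (Nat.card Y / orderOf y) := by
  classical
  have hfpos : 0 < orderOf y := orderOf_pos y
  have : NeZero (orderOf y) := ⟨hfpos.ne'⟩
  obtain ⟨ξ, hξ⟩ := HasEnoughRootsOfUnity.exists_primitiveRoot ℂ (orderOf y)
  have key := hξ.pow_sub_pow_eq_prod_sub_mul (1 : ℂ) T hfpos
  rw [one_pow] at key
  rw [key, ← prod_pow]
  rw [← prod_fiberwise_of_maps_to (g := fun χ : Y →* ℂˣ => ((χ y : ℂˣ) : ℂ))
    (t := Polynomial.nthRootsFinset (orderOf y) (1 : ℂ))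
    (fun χ _ => eval_mem_nthRootsFinset y χ)]
  refine prod_congr rfl fun ζ hζ => ?_
  rw [prod_congr rfl (g := fun _ => 1 - ζ * T), prod_const]
  · congr 1
    exact card_fiber_eval y ζ hζ
  · intro χ hχ
    rw [(mem_filter.mp hχ).2]

/-- Inverse form of `prod_one_sub_char_mul` (Euler factors). -/
theorem prod_inv_one_sub_char_mul (y : Y) (T : ℂ) :
    ∏ χ : Y →* ℂˣ, (1 - ((χ y : ℂˣ) : ℂ) * T)⁻¹
      = ((1 - T ^ orderOf y) ^ (Nat.card Y / orderOf y))⁻¹ := by
  rw [prod_inv_distrib, prod_one_sub_char_mul]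

/-- The number of characters is `card Y`. -/
theorem card_char : Fintype.card (Y →* ℂˣ) = Nat.card Y := by
  rw [← Nat.card_eq_fintype_card, CommGroup.card_monoidHom_of_hasEnoughRootsOfUnity Y ℂ]

/-- Orthogonality: `∑_χ χ(y) = card Y` if `y = 1`, and `0` otherwise. -/
theorem sum_char_apply (y : Y) [Decidable (y = 1)] :
    ∑ χ : Y →* ℂˣ, ((χ y : ℂˣ) : ℂ) = if y = 1 then (Nat.card Y : ℂ) else 0 := by
  split_ifs with hy
  · subst hy
    simp [card_char]
  · obtain ⟨χ₀, hχ₀⟩ := CommGroup.exists_apply_ne_one_of_hasEnoughRootsOfUnity Y ℂ hy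
    have h1 : ∑ χ : Y →* ℂˣ, ((χ y : ℂˣ) : ℂ)
        = ((χ₀ y : ℂˣ) : ℂ) * ∑ χ : Y →* ℂˣ, ((χ y : ℂˣ) : ℂ) := by
      rw [mul_sum]
      refine (Fintype.sum_equiv (Equiv.mulLeft χ₀) _ _ fun χ => ?_).symm
      simp [MonoidHom.mul_apply]
    have h2 : (((χ₀ y : ℂˣ) : ℂ) - 1) * ∑ χ : Y →* ℂˣ, ((χ y : ℂˣ) : ℂ) = 0 := by
      rw [sub_mul, one_mul, ← h1, sub_self]
    rcases mul_eq_zero.mp h2 with h | h
    · exfalso
      apply hχ₀
      rw [sub_eq_zero] at h
      exact Units.ext h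
    · exact h

end Fermat.Agent.Lib.CFT.Unram.CharProd
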