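import Mathlib

/-!
helper76 (S14 fast track, WP-U4): abstract real-analytic lemmas for the upper bound
`[I_K : P_K N(I_L)] ≤ [L : K]`.
-/

set_option autoImplicit false

open Filter Topology Finset

namespace Fermat.Agent.Lib.CFT.Unram.UpperBound

/-- The limit argument: if `ZL^h ≤ C * ZK^n` near `1⁺` and both have at most simple poles at `1`,
the one of `ZL` being genuine, then `h ≤ n`. -/
theorem le_of_pole_bound {ZL ZK : ℝ → ℝ} {ρL ρK C : ℝ} {h n : ℕ} (hρL : 0 < ρL)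
    (hL : Tendsto (fun s : ℝ => (s - 1) * ZL s) (𝓝[>] 1) (𝓝 ρL))
    (hK : Tendsto (fun s : ℝ => (s - 1) * ZK s) (𝓝[>] 1) (𝓝 ρK))
    (hbound : ∀ s : ℝ, 1 < s → s ≤ 2 → ZL s ^ h ≤ C * ZK s ^ n) : h ≤ n := by
  by_contra hlt
  push Not at hlt
  obtain ⟨k, rfl⟩ : ∃ k, h = n + (k + 1) := ⟨h - n - 1, by omega⟩
  have hs1 : Tendsto (fun s : ℝ => s - 1) (𝓝[>] 1) (𝓝 0) := by
    have : Tendsto (fun s : ℝ => s - 1) (𝓝 1) (𝓝 (1 - 1)) :=
      (continuous_id.sub continuous_const).tendsto 1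
    simpa using this.mono_left nhdsWithin_le_nhds
  have hlhs : Tendsto (fun s : ℝ => ((s - 1) * ZL s) ^ (n + (k + 1))) (𝓝[>] 1)
      (𝓝 (ρL ^ (n + (k + 1)))) := hL.pow _
  have hrhs : Tendsto (fun s : ℝ => C * (s - 1) ^ (k + 1) * ((s - 1) * ZK s) ^ n) (𝓝[>] 1)
      (𝓝 (C * 0 ^ (k + 1) * ρK ^ n)) :=
    ((hs1.pow (k + 1)).const_mul C).mul (hK.pow n)
  have hev : ∀ᶠ s : ℝ in 𝓝[>] 1, ((s - 1) * ZL s) ^ (n + (k + 1)) ≤
      C * (s - 1) ^ (k + 1) * ((s - 1) * ZK s) ^ n := by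
    have h2 : ∀ᶠ s : ℝ in 𝓝[>] 1, s ≤ 2 := by
      have : Set.Iic (2 : ℝ) ∈ 𝓝 (1 : ℝ) := Iic_mem_nhds (by norm_num)
      exact nhdsWithin_le_nhds this
    filter_upwards [self_mem_nhdsWithin, h2] with s hs hs2
    have hs' : (1 : ℝ) < s := hs
    have hpos : 0 ≤ (s - 1) ^ (n + (k + 1)) := pow_nonneg (by linarith) _
    calc ((s - 1) * ZL s) ^ (n + (k + 1)) = (s - 1) ^ (n + (k + 1)) * ZL s ^ (n + (k + 1)) := by
          rw [mul_pow]
      _ ≤ (s - 1) ^ (n + (k + 1)) * (C * ZK s ^ n) :=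
          mul_le_mul_of_nonneg_left (hbound s hs' hs2) hpos
      _ = C * (s - 1) ^ (k + 1) * ((s - 1) * ZK s) ^ n := by
          rw [mul_pow, pow_add]; ring
  have := le_of_tendsto_of_tendsto hlhs hrhs hev
  have hzero : C * (0 : ℝ) ^ (k + 1) * ρK ^ n = 0 := by simp
  rw [hzero] at this
  exact absurd this (not_le.mpr (pow_pos hρL _))

/-- Partial products of a convergent product with factors `≥ 1` are bounded by the product. -/
theorem prod_le_of_hasProd {ι : Type*} {f : ι → ℝ} {a : ℝ} (hf : HasProd f a) (h1 : ∀ i, 1 ≤ f i)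
    (T : Finset ι) : ∏ i ∈ T, f i ≤ a := by
  classical
  refine ge_of_tendsto hf ?_
  filter_upwards [Filter.eventually_ge_atTop T] with T' hT'
  exact Finset.prod_le_prod_of_subset_of_one_le hT' (fun i _ => zero_le_one.trans (h1 i))
    fun i _ _ => h1 i

/-- A product over a finite set, bounded fibrewise: if `π` has fibres of size at most `n` on `T`
and `1 ≤ b`, then `∏_{w ∈ T} b (π w) ≤ (∏_{v ∈ π(T)} b v) ^ n`. -/
theorem prod_comp_le_pow {α β : Type*} [DecidableEq β] (π : α → β) (b : β → ℝ) (hb : ∀ v, 1 ≤ b v)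
    (n : ℕ) (T : Finset α) (hfib : ∀ v, #{w ∈ T | π w = v} ≤ n) :
    ∏ w ∈ T, b (π w) ≤ (∏ v ∈ T.image π, b v) ^ n := by
  rw [Finset.prod_comp, ← Finset.prod_pow]
  refine Finset.prod_le_prod (fun v _ => pow_nonneg (zero_le_one.trans (hb v)) _) fun v _ => ?_
  exact pow_le_pow_right₀ (hb v) (hfib v)

end Fermat.Agent.Lib.CFT.Unram.UpperBound
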