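import Mathlib

/-!
helper76 (S14 fast track, WP-U4): characters of a finite abelian group `Y`:
`∏ χ, (1 - χ y * x) = (1 - x ^ m) ^ k` with `m * k = |Y|`.
-/

set_option autoImplicit false

open Polynomial Finset

namespace Fermat.Agent.Lib.CFT.Unram.UpperBound

/-- A finite set of `m` complex numbers all satisfying `ω ^ m = 1` is the set of all `m`-th roots
of unity. -/
theorem finset_eq_nthRootsFinset {s : Finset ℂ} {m : ℕ} (hm : 0 < m) (hcard : s.card = m)
    (hs : ∀ ω ∈ s, ω ^ m = 1) : s = nthRootsFinset m (1 : ℂ) := by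
  apply Finset.eq_of_subset_of_card_le
  · intro ω hω
    rw [mem_nthRootsFinset hm]
    exact hs ω hω
  · rw [hcard, (Complex.isPrimitiveRoot_exp m hm.ne').card_nthRootsFinset]

theorem prod_one_sub_mul_of_roots {s : Finset ℂ} {m : ℕ} (hm : 0 < m) (hcard : s.card = m)
    (hs : ∀ ω ∈ s, ω ^ m = 1) (x : ℂ) : ∏ ω ∈ s, (1 - ω * x) = 1 - x ^ m := by
  rw [finset_eq_nthRootsFinset hm hcard hs,
    ← (Complex.isPrimitiveRoot_exp m hm.ne').pow_sub_pow_eq_prod_sub_mul 1 x hm, one_pow]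

variable {Y : Type*} [CommGroup Y] [Finite Y]

instance finite_monoidHom_units : Finite (Y →* ℂˣ) := by
  have h := CommGroup.card_monoidHom_of_hasEnoughRootsOfUnity Y ℂ
  exact Nat.finite_of_card_ne_zero (by rw [h]; exact Nat.card_pos.ne')

theorem card_monoidHom_units : Nat.card (Y →* ℂˣ) = Nat.card Y :=
  CommGroup.card_monoidHom_of_hasEnoughRootsOfUnity Y ℂ

/-- The character product identity. -/
theorem exists_prod_one_sub_char [Fintype (Y →* ℂˣ)] (y : Y) :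
    ∃ m k : ℕ, 0 < m ∧ m * k = Nat.card Y ∧
      ∀ x : ℂ, ∏ χ : Y →* ℂˣ, (1 - ((χ y : ℂˣ) : ℂ) * x) = (1 - x ^ m) ^ k := by
  classical
  let ev : (Y →* ℂˣ) →* ℂ := (Units.coeHom ℂ).comp (MonoidHom.eval y)
  have hev : ∀ χ : (Y →* ℂˣ), ev χ = ((χ y : ℂˣ) : ℂ) := fun χ => rfl
  set s : Finset ℂ := Finset.univ.image ev with hs
  set m := s.card with hm
  set k := #{χ : (Y →* ℂˣ) | ev χ = 1} with hk
  have h1s : (1 : ℂ) ∈ s := Finset.mem_image.2 ⟨1, Finset.mem_univ _, map_one ev⟩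
  have hmpos : 0 < m := Finset.card_pos.2 ⟨1, h1s⟩
  have hfib : ∀ ω ∈ s, #{χ : (Y →* ℂˣ) | ev χ = ω} = k := by
    intro ω hω
    obtain ⟨χ, -, rfl⟩ := Finset.mem_image.1 hω
    exact MonoidHom.card_fiber_eq_of_mem_range ev ⟨χ, rfl⟩ ⟨1, map_one ev⟩
  have hcardG : Fintype.card (Y →* ℂˣ) = m * k := by
    have := Finset.card_eq_sum_card_image ev (Finset.univ : Finset (Y →* ℂˣ))
    rw [Finset.card_univ] at this
    rw [this, Finset.sum_congr rfl hfib, Finset.sum_const, smul_eq_mul]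
  have hkpos : 0 < k := Finset.card_pos.2 ⟨1, by simp⟩
  have hcardY : m * k = Nat.card Y := by
    rw [← hcardG, ← Nat.card_eq_fintype_card, card_monoidHom_units]
  -- Lagrange: every value is an `m`-th root of unity
  have hpow : ∀ ω ∈ s, ω ^ m = 1 := by
    intro ω hω
    obtain ⟨χ, -, rfl⟩ := Finset.mem_image.1 hω
    let K : Subgroup (Y →* ℂˣ) := (MonoidHom.eval y : (Y →* ℂˣ) →* ℂˣ).ker
    have hKk : Nat.card K = k := by
      rw [Nat.card_eq_fintype_card, hk, Fintype.card_subtype]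
      congr 1
      ext χ
      simp only [Finset.mem_filter, Finset.mem_univ, true_and, K, MonoidHom.mem_ker, hev]
      constructor
      · intro h
        have h' : χ y = 1 := h
        rw [h']; rfl
      · intro h; exact Units.ext h
    have hq : Nat.card ((Y →* ℂˣ) ⧸ K) = m := by
      have h := K.card_eq_card_quotient_mul_card_subgroup
      rw [hKk, Nat.card_eq_fintype_card (α := (Y →* ℂˣ)), hcardG] at h
      exact (Nat.eq_of_mul_eq_mul_right hkpos h).symm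
    have h1 : ((χ : (Y →* ℂˣ)) : (Y →* ℂˣ) ⧸ K) ^ m = 1 := by
      rw [← hq]; exact pow_card_eq_one'
    have h2 : χ ^ m ∈ K := by
      rw [← QuotientGroup.eq_one_iff, QuotientGroup.mk_pow]; exact h1
    have h3 : (MonoidHom.eval y : (Y →* ℂˣ) →* ℂˣ) (χ ^ m) = 1 := h2
    rw [← map_pow]
    show (((MonoidHom.eval y : (Y →* ℂˣ) →* ℂˣ) (χ ^ m) : ℂˣ) : ℂ) = 1
    rw [h3]; rfl
  refine ⟨m, k, hmpos, hcardY, fun x => ?_⟩
  have h1 : ∏ χ : Y →* ℂˣ, (1 - ((χ y : ℂˣ) : ℂ) * x) =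
      ∏ ω ∈ s, (1 - ω * x) ^ #{χ : (Y →* ℂˣ) | ev χ = ω} :=
    Finset.prod_comp (s := (Finset.univ : Finset (Y →* ℂˣ))) (fun ω : ℂ => 1 - ω * x) ev
  rw [h1, Finset.prod_congr rfl (fun ω hω => by rw [hfib ω hω]), Finset.prod_pow,
    prod_one_sub_mul_of_roots hmpos hm.symm hpow]

theorem prod_one_sub_char_one [Fintype (Y →* ℂˣ)] (x : ℂ) :
    ∏ χ : Y →* ℂˣ, (1 - ((χ (1 : Y) : ℂˣ) : ℂ) * x) = (1 - x) ^ Nat.card Y := by
  simp only [map_one, Units.val_one, one_mul, Finset.prod_const, Finset.card_univ]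
  rw [← Nat.card_eq_fintype_card, card_monoidHom_units]

end Fermat.Agent.Lib.CFT.Unram.UpperBound
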