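import Mathlib
import Fermat.Agent.Lib.CFT.Unram.Defs

/-!
helper76 (S14 fast track, WP-U4): primes of `L` above primes of `K`: fibre sizes, norms, and
primes of degree one are norms.
-/

set_option autoImplicit false

open NumberField IsDedekindDomain Finset
open scoped nonZeroDivisors

namespace Fermat.Agent.Lib.CFT.Unram.UpperBound

variable (K L : Type*) [Field K] [NumberField K] [Field L] [NumberField L] [Algebra K L]

/-- The prime of `K` below a prime of `L`. -/
noncomputable def below (w : HeightOneSpectrum (𝓞 L)) : HeightOneSpectrum (𝓞 K) :=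
  w.under (𝓞 K)

instance liesOver_below (w : HeightOneSpectrum (𝓞 L)) :
    w.asIdeal.LiesOver (below K L w).asIdeal := ⟨rfl⟩

/-- At most `[L : K]` primes of `L` lie above a given prime of `K`. -/
theorem card_fiber_le [DecidableEq (HeightOneSpectrum (𝓞 K))] (v : HeightOneSpectrum (𝓞 K))
    (T : Finset (HeightOneSpectrum (𝓞 L))) :
    #{w ∈ T | below K L w = v} ≤ Module.finrank K L := by
  classical
  have hv : v.asIdeal.IsPrime := v.isPrime
  have hsum := Ideal.sum_ramification_inertia_eq_finrank v.asIdeal (𝓞 L)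
  rw [← IsFractionRing.finrank_eq (𝓞 K) K (𝓞 L) L] at hsum
  rw [← hsum]
  -- inject the fibre into `primesOver`
  let g : {w // w ∈ ({w ∈ T | below K L w = v} : Finset _)} → v.asIdeal.primesOver (𝓞 L) :=
    fun w => ⟨w.1.asIdeal, w.1.isPrime, by
      have h := (Finset.mem_filter.1 w.2).2
      exact ⟨congrArg HeightOneSpectrum.asIdeal h.symm⟩⟩
  have hg : Function.Injective g := by
    intro a b hab
    have : a.1.asIdeal = b.1.asIdeal := congrArg Subtype.val hab
    exact Subtype.ext (HeightOneSpectrum.ext this)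
  have h1 : #{w ∈ T | below K L w = v} ≤ Fintype.card (v.asIdeal.primesOver (𝓞 L)) := by
    have := Fintype.card_le_of_injective g hg
    simpa using this
  refine h1.trans ?_
  rw [Fintype.card_eq_sum_ones]
  refine Finset.sum_le_sum fun q _ => ?_
  have : q.1.IsPrime := q.2.1
  have : q.1.LiesOver v.asIdeal := q.2.2
  refine Right.one_le_mul ?_ ?_
  · exact Ideal.ramificationIdx_pos (R := 𝓞 K) (q := q.1)
  · exact Ideal.inertiaDeg_pos (R := 𝓞 K) (q := q.1)


/-- The inertia degree over `K` of a prime of `L`. -/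
noncomputable def fdeg (w : HeightOneSpectrum (𝓞 L)) : ℕ := w.asIdeal.inertiaDeg (𝓞 K)

theorem fdeg_pos (w : HeightOneSpectrum (𝓞 L)) : 0 < fdeg K L w :=
  Ideal.inertiaDeg_pos (R := 𝓞 K) (q := w.asIdeal)

theorem relNorm_eq_pow (w : HeightOneSpectrum (𝓞 L)) :
    Ideal.relNorm (𝓞 K) w.asIdeal = (below K L w).asIdeal ^ fdeg K L w := by
  have h1 : w.asIdeal.IsMaximal := w.isMaximal
  have h2 : (below K L w).asIdeal.IsMaximal := (below K L w).isMaximal
  exact Ideal.relNorm_eq_pow_of_isMaximal w.asIdeal (below K L w).asIdeal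

theorem absNorm_eq_pow (w : HeightOneSpectrum (𝓞 L)) :
    Ideal.absNorm w.asIdeal = Ideal.absNorm (below K L w).asIdeal ^ fdeg K L w := by
  rw [← Ideal.absNorm_relNorm (𝓞 K), relNorm_eq_pow, map_pow]

/-- A nonzero prime as an element of `(Ideal (𝓞 K))⁰`. -/
noncomputable def primeNZ (v : HeightOneSpectrum (𝓞 K)) : (Ideal (𝓞 K))⁰ :=
  ⟨v.asIdeal, mem_nonZeroDivisors_of_ne_zero v.ne_bot⟩

/-- A prime of `K` below a prime of `L` of relative degree one is a norm. -/
theorem mk0_mem_normClasses_of_fdeg_eq_one (w : HeightOneSpectrum (𝓞 L)) (h : fdeg K L w = 1) :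
    ClassGroup.mk0 (primeNZ K (below K L w)) ∈ normClasses K L := by
  refine Subgroup.subset_closure ⟨primeNZ L w, ?_⟩
  have hE : relNorm0 K L (primeNZ L w) = primeNZ K (below K L w) := by
    apply Subtype.ext
    rw [coe_relNorm0]
    show Ideal.relNorm (𝓞 K) w.asIdeal = (below K L w).asIdeal
    rw [relNorm_eq_pow, h, pow_one]
  show ClassGroup.mk0 (relNorm0 K L (primeNZ L w)) = ClassGroup.mk0 (primeNZ K (below K L w))
  rw [hE]

end Fermat.Agent.Lib.CFT.Unram.UpperBound
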