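import Mathlib
import Fermat.Agent.Lib.CFT.Unram.Defs
import Fermat.Agent.Lib.CFT.Unram.EulerProduct
import Fermat.Agent.Lib.CFT.Unram.PartialZetaClasses
import Fermat.Agent.Lib.CFT.Unram.UpperBound.Characters
import Fermat.Agent.Lib.CFT.Unram.UpperBound.Analytic
import Fermat.Agent.Lib.CFT.Unram.UpperBound.Primes

/-!
helper76 (S14 fast track, WP-U4): the analytic upper bound `[I_K : P_K N(I_L)] ≤ [L : K]`
from the boundedness of the `L`-series of nontrivial class group characters near `s = 1`.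
-/

set_option autoImplicit false

open NumberField IsDedekindDomain Finset Filter Topology
open scoped nonZeroDivisors

namespace Fermat.Agent.Lib.CFT.Unram.UpperBound

open Fermat.Agent.Lib.CFT.Unram.EulerProduct

variable (K L : Type*) [Field K] [NumberField K] [Field L] [NumberField L] [Algebra K L]

/-- The output of WP-U2, as a hypothesis: the `L`-series of the nontrivial class group characters
are uniformly bounded on `(1, 2]`. -/
def PartialZetaBound : Prop :=
  ∃ B : ℝ, ∀ χ : ClassGroup (𝓞 K) →* ℂˣ, χ ≠ 1 → ∀ s : ℝ, 1 < s → s ≤ 2 →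
    ‖∑' a : (Ideal (𝓞 K))⁰, charTerm K χ s a‖ ≤ B

/-- `a ↦ χ([a]) N(a)^(-s)` as a monoid homomorphism on nonzero ideals. -/
noncomputable def chiHom (χ : ClassGroup (𝓞 K) →* ℂˣ) (s : ℝ) : (Ideal (𝓞 K))⁰ →* ℂ where
  toFun a := charTerm K χ s a
  map_one' := by
    simp [charTerm]
  map_mul' a b := by
    simp only [charTerm, map_mul, Units.val_mul, Submonoid.coe_mul, Nat.cast_mul]
    rw [Real.mul_rpow (Nat.cast_nonneg _) (Nat.cast_nonneg _)]
    push_cast
    ring

theorem chiHom_apply (χ : ClassGroup (𝓞 K) →* ℂˣ) (s : ℝ) (a : (Ideal (𝓞 K))⁰) :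
    chiHom K χ s a = charTerm K χ s a := rfl

theorem norm_chiHom (χ : ClassGroup (𝓞 K) →* ℂˣ) (s : ℝ) (a : (Ideal (𝓞 K))⁰) :
    ‖chiHom K χ s a‖ = ((Ideal.absNorm (a : Ideal (𝓞 K)) : ℝ)) ^ (-s) :=
  norm_charTerm χ s a

/-- The quotient of the class group by the classes of norms. -/
abbrev YGrp : Type _ := ClassGroup (𝓞 K) ⧸ normClasses K L

/-- The class of a prime of `K` in `YGrp`. -/
noncomputable def yOf (v : HeightOneSpectrum (𝓞 K)) : YGrp K L :=
  QuotientGroup.mk' (normClasses K L) (ClassGroup.mk0 (primeIdeal K v))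

/-- A character of `YGrp` seen as a class group character. -/
noncomputable def liftChar (χ : YGrp K L →* ℂˣ) : ClassGroup (𝓞 K) →* ℂˣ :=
  χ.comp (QuotientGroup.mk' (normClasses K L))

theorem liftChar_ne_one {χ : YGrp K L →* ℂˣ} (hχ : χ ≠ 1) : liftChar K L χ ≠ 1 := by
  intro h
  apply hχ
  ext y
  have := DFunLike.congr_fun h y
  simpa [liftChar] using this

theorem liftChar_one : liftChar K L (1 : YGrp K L →* ℂˣ) = 1 := by
  ext c
  simp [liftChar]

/-- `x_v = N(v)^(-s)`. -/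
noncomputable def xOf (s : ℝ) (v : HeightOneSpectrum (𝓞 K)) : ℝ :=
  (Ideal.absNorm v.asIdeal : ℝ) ^ (-s)

theorem xOf_pos (s : ℝ) (v : HeightOneSpectrum (𝓞 K)) : 0 < xOf K s v :=
  absNorm_prime_rpow_pos K v s

theorem xOf_lt_one {s : ℝ} (hs : 0 < s) (v : HeightOneSpectrum (𝓞 K)) : xOf K s v < 1 :=
  absNorm_prime_rpow_lt_one K v hs

theorem chiHom_liftChar_prime (χ : YGrp K L →* ℂˣ) (s : ℝ) (v : HeightOneSpectrum (𝓞 K)) :
    chiHom K (liftChar K L χ) s (primeIdeal K v) =
      ((χ (yOf K L v) : ℂˣ) : ℂ) * ((xOf K s v : ℝ) : ℂ) := rfl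

noncomputable instance fintypeYChar : Fintype (YGrp K L →* ℂˣ) := Fintype.ofFinite _

theorem card_YGrp : Nat.card (YGrp K L) = (normClasses K L).index := rfl

/-- The Euler factor at `v` of the product of all the `L`-series, as a complex number. -/
noncomputable def EfacC (s : ℝ) (v : HeightOneSpectrum (𝓞 K)) : ℂ :=
  ∏ χ : YGrp K L →* ℂˣ, (1 - chiHom K (liftChar K L χ) s (primeIdeal K v))⁻¹

/-- The Euler factor at `v` of the product of all the `L`-series, as a real number. -/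
noncomputable def Efac (s : ℝ) (v : HeightOneSpectrum (𝓞 K)) : ℝ := ‖EfacC K L s v‖

theorem exists_EfacC_eq (s : ℝ) (v : HeightOneSpectrum (𝓞 K)) :
    ∃ m k : ℕ, 0 < m ∧ m * k = (normClasses K L).index ∧
      EfacC K L s v = ((((1 - xOf K s v ^ m) ^ k)⁻¹ : ℝ) : ℂ) := by
  obtain ⟨m, k, hm, hmk, hid⟩ := exists_prod_one_sub_char (Y := YGrp K L) (yOf K L v)
  refine ⟨m, k, hm, by rw [hmk, card_YGrp], ?_⟩
  rw [EfacC, Finset.prod_inv_distrib]
  simp_rw [chiHom_liftChar_prime]
  rw [hid]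
  push_cast
  rfl

theorem one_sub_pow_mem {x : ℝ} (hx0 : 0 < x) (hx1 : x < 1) {m : ℕ} (hm : 0 < m) (k : ℕ) :
    0 < (1 - x ^ m) ^ k ∧ (1 - x ^ m) ^ k ≤ 1 := by
  have h1 : 0 < x ^ m := pow_pos hx0 m
  have h2 : x ^ m < 1 := pow_lt_one₀ hx0.le hx1 hm.ne'
  exact ⟨pow_pos (by linarith) k, pow_le_one₀ (by linarith) (by linarith)⟩

theorem Efac_coe {s : ℝ} (hs : 0 < s) (v : HeightOneSpectrum (𝓞 K)) :
    ((Efac K L s v : ℝ) : ℂ) = EfacC K L s v := by
  obtain ⟨m, k, hm, -, hE⟩ := exists_EfacC_eq K L s v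
  have h := one_sub_pow_mem (xOf_pos K s v) (xOf_lt_one K hs v) hm k
  rw [Efac, hE, Complex.norm_real, Real.norm_of_nonneg (inv_nonneg.mpr h.1.le)]

theorem one_le_Efac {s : ℝ} (hs : 0 < s) (v : HeightOneSpectrum (𝓞 K)) :
    1 ≤ Efac K L s v := by
  obtain ⟨m, k, hm, -, hE⟩ := exists_EfacC_eq K L s v
  have h := one_sub_pow_mem (xOf_pos K s v) (xOf_lt_one K hs v) hm k
  rw [Efac, hE, Complex.norm_real, Real.norm_of_nonneg (inv_nonneg.mpr h.1.le)]
  exact (one_le_inv₀ h.1).mpr h.2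

theorem Efac_of_yOf_eq_one {s : ℝ} (hs : 0 < s) (v : HeightOneSpectrum (𝓞 K))
    (hy : yOf K L v = 1) :
    Efac K L s v = ((1 - xOf K s v)⁻¹) ^ (normClasses K L).index := by
  have hx0 := xOf_pos K s v
  have hx1 := xOf_lt_one K hs v
  have hE : EfacC K L s v = (((((1 - xOf K s v)⁻¹) ^ (normClasses K L).index : ℝ)) : ℂ) := by
    rw [EfacC, Finset.prod_inv_distrib]
    simp_rw [chiHom_liftChar_prime, hy]
    rw [prod_one_sub_char_one, card_YGrp]
    push_cast
    rw [inv_pow]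
  rw [Efac, hE, Complex.norm_real, Real.norm_of_nonneg]
  exact pow_nonneg (inv_nonneg.mpr (by linarith)) _

/-- The product of all the `L`-series of the characters of `YGrp`. -/
noncomputable def Dprod (s : ℝ) : ℂ :=
  ∏ χ : YGrp K L →* ℂˣ, ∑' a : (Ideal (𝓞 K))⁰, chiHom K (liftChar K L χ) s a

theorem hasProd_Efac {s : ℝ} (hs : 1 < s) : HasProd (Efac K L s) ‖Dprod K L s‖ := by
  have h1 : ∀ χ : YGrp K L →* ℂˣ,
      HasProd (fun v : HeightOneSpectrum (𝓞 K) =>
        (1 - chiHom K (liftChar K L χ) s (primeIdeal K v))⁻¹)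
        (∑' a : (Ideal (𝓞 K))⁰, chiHom K (liftChar K L χ) s a) := fun χ =>
    (hasProd_of_norm_le K (chiHom K (liftChar K L χ) s) hs
      (fun a => (norm_chiHom K _ s a).le)).2.2
  have h2 : HasProd (fun v : HeightOneSpectrum (𝓞 K) => EfacC K L s v) (Dprod K L s) :=
    hasProd_prod (fun χ _ => h1 χ)
  exact h2.norm

/-- The auxiliary convergent factor `(1 - N(v)^(-2))⁻¹`. -/
noncomputable def Gfac (v : HeightOneSpectrum (𝓞 K)) : ℝ :=
  (1 - (Ideal.absNorm v.asIdeal : ℝ) ^ (-(2 : ℝ)))⁻¹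

theorem one_le_Gfac (v : HeightOneSpectrum (𝓞 K)) : 1 ≤ Gfac K v :=
  one_le_factor K v (by norm_num)

theorem absNorm_rpow_eq_pow (s : ℝ) (w : HeightOneSpectrum (𝓞 L)) :
    (Ideal.absNorm w.asIdeal : ℝ) ^ (-s) = xOf K s (below K L w) ^ fdeg K L w := by
  rw [absNorm_eq_pow K L w, xOf, Nat.cast_pow, ← Real.rpow_natCast, ← Real.rpow_natCast,
    ← Real.rpow_mul (Nat.cast_nonneg _), ← Real.rpow_mul (Nat.cast_nonneg _), mul_comm]

theorem xOf_pow_le {s : ℝ} (hs : 1 ≤ s) (v : HeightOneSpectrum (𝓞 K)) {f : ℕ} (hf : 2 ≤ f) :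
    xOf K s v ^ f ≤ (Ideal.absNorm v.asIdeal : ℝ) ^ (-(2 : ℝ)) := by
  have h1 : (1 : ℝ) ≤ (Ideal.absNorm v.asIdeal : ℝ) := by
    exact_mod_cast (one_lt_absNorm_prime K v).le
  rw [xOf, ← Real.rpow_natCast, ← Real.rpow_mul (Nat.cast_nonneg _)]
  apply Real.rpow_le_rpow_of_exponent_le h1
  have hf' : (2 : ℝ) ≤ (f : ℝ) := by exact_mod_cast hf
  nlinarith

theorem factor_pow_le {s : ℝ} (hs : 1 ≤ s) (w : HeightOneSpectrum (𝓞 L)) :
    ((1 - (Ideal.absNorm w.asIdeal : ℝ) ^ (-s))⁻¹) ^ (normClasses K L).index ≤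
      Efac K L s (below K L w) * Gfac K (below K L w) ^ (normClasses K L).index := by
  have hs0 : 0 < s := by linarith
  set v := below K L w with hv
  have hx0 := xOf_pos K s v
  have hx1 := xOf_lt_one K hs0 v
  have hG := one_le_Gfac K v
  have hE := one_le_Efac K L hs0 v
  rw [absNorm_rpow_eq_pow K L s w]
  rcases Nat.lt_or_ge (fdeg K L w) 2 with hf | hf
  · have hf1 : fdeg K L w = 1 := by
      have := fdeg_pos K L w
      omega
    have hy : yOf K L v = 1 := by
      rw [yOf, QuotientGroup.mk'_apply, QuotientGroup.eq_one_iff]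
      exact mk0_mem_normClasses_of_fdeg_eq_one K L w hf1
    rw [hf1, pow_one, Efac_of_yOf_eq_one K L hs0 v hy]
    have h1 : 0 ≤ ((1 - xOf K s v)⁻¹) ^ (normClasses K L).index :=
      pow_nonneg (inv_nonneg.mpr (by linarith)) _
    calc ((1 - xOf K s v)⁻¹) ^ (normClasses K L).index
        = ((1 - xOf K s v)⁻¹) ^ (normClasses K L).index * 1 := (mul_one _).symm
      _ ≤ ((1 - xOf K s v)⁻¹) ^ (normClasses K L).index * Gfac K v ^ (normClasses K L).index :=
        mul_le_mul_of_nonneg_left (one_le_pow₀ hG) h1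
  · have h1 := xOf_pow_le K hs v hf
    have h2 : (Ideal.absNorm v.asIdeal : ℝ) ^ (-(2 : ℝ)) < 1 :=
      absNorm_prime_rpow_lt_one K v (by norm_num)
    have h3 : (1 - xOf K s v ^ fdeg K L w)⁻¹ ≤ Gfac K v := by
      rw [Gfac]
      apply inv_anti₀ (by linarith)
      linarith
    have h4 : 0 ≤ (1 - xOf K s v ^ fdeg K L w)⁻¹ := by
      apply inv_nonneg.mpr
      linarith
    calc ((1 - xOf K s v ^ fdeg K L w)⁻¹) ^ (normClasses K L).index
        ≤ Gfac K v ^ (normClasses K L).index := pow_le_pow_left₀ h4 h3 _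
      _ = 1 * Gfac K v ^ (normClasses K L).index := (one_mul _).symm
      _ ≤ Efac K L s v * Gfac K v ^ (normClasses K L).index :=
        mul_le_mul_of_nonneg_right hE (pow_nonneg (zero_le_one.trans hG) _)

/-- Comparison of the finite partial Euler products of `ζ_L` with the product of `L`-series. -/
theorem prod_pow_le {s : ℝ} (hs : 1 < s) (T : Finset (HeightOneSpectrum (𝓞 L))) :
    (∏ w ∈ T, (1 - (Ideal.absNorm w.asIdeal : ℝ) ^ (-s))⁻¹) ^ (normClasses K L).index ≤
      (‖Dprod K L s‖ * zetaReal K 2 ^ (normClasses K L).index) ^ Module.finrank K L := by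
  classical
  have hs0 : 0 < s := by linarith
  set h := (normClasses K L).index with hh
  set b : HeightOneSpectrum (𝓞 K) → ℝ := fun v => Efac K L s v * Gfac K v ^ h with hb
  have hb1 : ∀ v, 1 ≤ b v := fun v =>
    one_le_mul_of_one_le_of_one_le (one_le_Efac K L hs0 v) (one_le_pow₀ (one_le_Gfac K v))
  rw [← Finset.prod_pow]
  calc ∏ w ∈ T, ((1 - (Ideal.absNorm w.asIdeal : ℝ) ^ (-s))⁻¹) ^ h
      ≤ ∏ w ∈ T, b (below K L w) := by
        refine Finset.prod_le_prod (fun w _ => ?_) (fun w _ => factor_pow_le K L hs.le w)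
        exact pow_nonneg (zero_le_one.trans (one_le_factor L w hs0)) _
    _ ≤ (∏ v ∈ T.image (below K L), b v) ^ Module.finrank K L :=
        prod_comp_le_pow (below K L) b hb1 _ T (fun v => card_fiber_le K L v T)
    _ ≤ (‖Dprod K L s‖ * zetaReal K 2 ^ h) ^ Module.finrank K L := by
        refine pow_le_pow_left₀ (Finset.prod_nonneg fun v _ => zero_le_one.trans (hb1 v)) ?_ _
        rw [Finset.prod_mul_distrib, Finset.prod_pow]
        have h1 : ∏ v ∈ T.image (below K L), Efac K L s v ≤ ‖Dprod K L s‖ :=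
          prod_le_of_hasProd (hasProd_Efac K L hs) (one_le_Efac K L hs0) _
        have h2 : ∏ v ∈ T.image (below K L), Gfac K v ≤ zetaReal K 2 :=
          prod_le_zetaReal K (by norm_num) _
        have h3 : 0 ≤ ∏ v ∈ T.image (below K L), Gfac K v :=
          Finset.prod_nonneg fun v _ => zero_le_one.trans (one_le_Gfac K v)
        exact mul_le_mul h1 (pow_le_pow_left₀ h3 h2 _) (pow_nonneg h3 _) (norm_nonneg _)

theorem zetaReal_pow_le {s : ℝ} (hs : 1 < s) :
    zetaReal L s ^ (normClasses K L).index ≤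
      (‖Dprod K L s‖ * zetaReal K 2 ^ (normClasses K L).index) ^ Module.finrank K L := by
  have h1 := (zetaReal_hasProd L hs).pow (normClasses K L).index
  refine le_of_tendsto h1 (Filter.Eventually.of_forall fun T => ?_)
  rw [Finset.prod_pow]
  exact prod_pow_le K L hs T

theorem norm_tsum_chiHom_one_le {s : ℝ} (hs : 1 < s) :
    ‖∑' a : (Ideal (𝓞 K))⁰, chiHom K (liftChar K L 1) s a‖ ≤ zetaReal K s := by
  have hsum : Summable (fun a : (Ideal (𝓞 K))⁰ => ‖chiHom K (liftChar K L 1) s a‖) :=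
    (summable_zetaReal K hs).congr (fun a => (norm_chiHom K _ s a).symm)
  refine (norm_tsum_le_tsum_norm hsum).trans (le_of_eq ?_)
  rw [zetaReal]
  exact tsum_congr fun a => norm_chiHom K _ s a

theorem exists_norm_Dprod_le (hPZ : PartialZetaBound K) :
    ∃ C : ℝ, 0 ≤ C ∧ ∀ s : ℝ, 1 < s → s ≤ 2 → ‖Dprod K L s‖ ≤ C * zetaReal K s := by
  classical
  obtain ⟨B, hB⟩ := hPZ
  refine ⟨(max B 1) ^ (Finset.univ.erase (1 : YGrp K L →* ℂˣ)).card,
    pow_nonneg (zero_le_one.trans (le_max_right _ _)) _, fun s hs hs2 => ?_⟩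
  rw [Dprod, norm_prod,
    ← Finset.mul_prod_erase Finset.univ _ (Finset.mem_univ (1 : YGrp K L →* ℂˣ)), mul_comm]
  refine mul_le_mul ?_ (norm_tsum_chiHom_one_le K L hs) (norm_nonneg _)
    (pow_nonneg (zero_le_one.trans (le_max_right _ _)) _)
  rw [← Finset.prod_const]
  refine Finset.prod_le_prod (fun _ _ => norm_nonneg _) fun χ hχ => ?_
  have hχ1 : χ ≠ 1 := Finset.ne_of_mem_erase hχ
  exact (hB (liftChar K L χ) (liftChar_ne_one K L hχ1) s hs hs2).trans (le_max_left _ _)

/-- The class number formula limit for the real Dedekind zeta function. -/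
theorem tendsto_sub_one_mul_zetaReal :
    Tendsto (fun s : ℝ => (s - 1) * zetaReal K s) (𝓝[>] 1) (𝓝 (dedekindZeta_residue K)) := by
  have h := NumberField.tendsto_sub_one_mul_dedekindZeta_nhdsGT K
  have h2 := (Complex.continuous_re.tendsto _).comp h
  rw [Complex.ofReal_re] at h2
  refine h2.congr' ?_
  filter_upwards [self_mem_nhdsWithin] with s hs
  simp only [Function.comp]
  rw [dedekindZeta_eq_zetaReal K hs, ← Complex.ofReal_one, ← Complex.ofReal_sub,
    ← Complex.ofReal_mul, Complex.ofReal_re]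

/-- **The second inequality** for the trivial modulus, conditional on the boundedness of the
`L`-series of the nontrivial class group characters near `s = 1`: the index of the group of
norm classes is at most the degree. -/
theorem index_normClasses_le (hPZ : PartialZetaBound K) :
    (normClasses K L).index ≤ Module.finrank K L := by
  obtain ⟨C, hC0, hC⟩ := exists_norm_Dprod_le K L hPZ
  refine le_of_pole_bound (ZL := zetaReal L) (ZK := zetaReal K)
    (C := (C * zetaReal K 2 ^ (normClasses K L).index) ^ Module.finrank K L)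
    (dedekindZeta_residue_pos L) (tendsto_sub_one_mul_zetaReal L)
    (tendsto_sub_one_mul_zetaReal K) ?_
  intro s hs hs2
  have hz2 : 0 ≤ zetaReal K 2 ^ (normClasses K L).index :=
    pow_nonneg (zetaReal_pos K (by norm_num)).le _
  calc zetaReal L s ^ (normClasses K L).index
      ≤ (‖Dprod K L s‖ * zetaReal K 2 ^ (normClasses K L).index) ^ Module.finrank K L :=
        zetaReal_pow_le K L hs
    _ ≤ ((C * zetaReal K s) * zetaReal K 2 ^ (normClasses K L).index) ^ Module.finrank K L :=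
        pow_le_pow_left₀ (mul_nonneg (norm_nonneg _) hz2)
          (mul_le_mul_of_nonneg_right (hC s hs hs2) hz2) _
    _ = (C * zetaReal K 2 ^ (normClasses K L).index) ^ Module.finrank K L *
          zetaReal K s ^ Module.finrank K L := by ring

/-- WP-U4: the upper bound from the output of WP-U2. -/
theorem upperBound_of_partialZeta
    (hPZ : ∀ (K : Type) [Field K] [NumberField K], PartialZetaBound K) (p : ℕ) :
    UpperBound p := by
  intro K L _ _ _ _ _ _ hdeg _
  rw [← hdeg]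
  exact index_normClasses_le K L (hPZ K)

end Fermat.Agent.Lib.CFT.Unram.UpperBound
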