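import Mathlib
import Fermat.Agent.Lib.CFT.Unram.UpperBound.Main
import Fermat.Agent.Lib.CFT.Unram.ClassZetaBound

/-!
helper76 (S14 fast track, WP-U4): the unconditional analytic upper bound
`[I_K : P_K N(I_L)] ≤ [L : K]`, combining `UpperBound/Main.lean` with helper68's bound for the
`L`-series of the nontrivial class group characters (`ClassZetaBound.lean`).
-/

set_option autoImplicit false

open NumberField
open scoped nonZeroDivisors

namespace Fermat.Agent.Lib.CFT.Unram.UpperBound

/-- WP-U2 (helper68): the `L`-series of the nontrivial class group characters are bounded on
`(1, 2]`. -/
theorem partialZetaBound (K : Type*) [Field K] [NumberField K] : PartialZetaBound K :=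
  Count.exists_norm_tsum_char_le K

/-- **The second inequality** (trivial modulus): for every extension `L/K` of number fields the
index of the group of norm classes in the class group of `K` is at most `[L : K]`. -/
theorem index_normClasses_le_finrank (K L : Type*) [Field K] [NumberField K] [Field L]
    [NumberField L] [Algebra K L] : (normClasses K L).index ≤ Module.finrank K L :=
  index_normClasses_le K L (partialZetaBound K)

/-- WP-U: the upper bound, unconditionally. -/
theorem upperBound (p : ℕ) : UpperBound p :=
  upperBound_of_partialZeta (fun K _ _ => partialZetaBound K) p

end Fermat.Agent.Lib.CFT.Unram.UpperBound
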